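import Mathlib

/-!
# S55 / H353 : a contraction lemma in adically complete rings

If `R` is `I`-adically complete and `q : R[X]` has all its coefficients in `I`,
then `s ↦ s + q(s)` is a bijection of `R`.

Mathlib-only, architecture independent.
-/

set_option autoImplicit false

namespace Fermat.Agent.S55.H353

open Polynomial

variable {R : Type*} [CommRing R]

/-- `q(s) - q(s') = (s - s') * r` with `r ∈ I` when all coefficients of `q` are in `I`. -/
theorem eval_sub_eval_eq_mul_of_coeff_mem (I : Ideal R) (q : R[X])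
    (hq : ∀ i, q.coeff i ∈ I) (s s' : R) :
    ∃ r ∈ I, q.eval s - q.eval s' = (s - s') * r := by
  refine ⟨∑ i ∈ q.support, q.coeff i * ∑ k ∈ Finset.range i, s ^ k * s' ^ (i - 1 - k), ?_, ?_⟩
  · exact Ideal.sum_mem _ fun i _ => Ideal.mul_mem_right _ _ (hq i)
  · rw [Polynomial.eval_eq_sum, Polynomial.eval_eq_sum, Polynomial.sum_def, Polynomial.sum_def,
      ← Finset.sum_sub_distrib, Finset.mul_sum]
    refine Finset.sum_congr rfl fun i _ => ?_
    have h := geom_sum₂_mul s s' i
    rw [← mul_sub, ← h]
    ring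

theorem eval_mem_of_coeff_mem (I : Ideal R) (q : R[X]) (hq : ∀ i, q.coeff i ∈ I) (s : R) :
    q.eval s ∈ I := by
  rw [Polynomial.eval_eq_sum, Polynomial.sum_def]
  exact Ideal.sum_mem _ fun i _ => Ideal.mul_mem_right _ _ (hq i)

/-- In an `I`-adically complete ring, `s ↦ s + q(s)` is injective when `q` has coefficients
in `I`. -/
theorem injective_add_eval (I : Ideal R) [IsAdicComplete I R] (q : R[X])
    (hq : ∀ i, q.coeff i ∈ I) : Function.Injective (fun s : R => s + q.eval s) := by
  intro s s' h
  simp only at h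
  obtain ⟨r, hr, hr'⟩ := eval_sub_eval_eq_mul_of_coeff_mem I q hq s s'
  have h1 : (s - s') * (1 + r) = 0 := by
    have : (s - s') * (1 + r) = (s + q.eval s) - (s' + q.eval s') := by
      rw [mul_add, mul_one, ← hr']; ring
    rw [this, h, sub_self]
  have hu : IsUnit (1 + r) := by
    have hj : r ∈ (⊥ : Ideal R).jacobson := IsAdicComplete.le_jacobson_bot I hr
    have := (Ideal.mem_jacobson_bot.1 hj) 1
    simpa [add_comm] using this
  have h2 : s - s' = 0 := by
    obtain ⟨u, hu'⟩ := hu
    have : (s - s') * (u : R) = 0 := by rw [hu']; exact h1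
    simpa using congrArg (· * ((u⁻¹ : Rˣ) : R)) this
  exact sub_eq_zero.1 h2

/-- In an `I`-adically complete ring, `s ↦ s + q(s)` is surjective when `q` has coefficients
in `I`. -/
theorem surjective_add_eval (I : Ideal R) [IsAdicComplete I R] (q : R[X])
    (hq : ∀ i, q.coeff i ∈ I) : Function.Surjective (fun s : R => s + q.eval s) := by
  intro t
  -- the sequence `a 0 = t`, `a (k+1) = t - q (a k)`
  let a : ℕ → R := fun n => Nat.recOn n t fun _ b => t - q.eval b
  have ha : ∀ n, a (n + 1) = t - q.eval (a n) := fun n => rfl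
  have hstep : ∀ n, a (n + 1) - a n ∈ I ^ (n + 1) := by
    intro n
    induction n with
    | zero =>
      have : a (0 + 1) - a 0 = - q.eval t := by
        show (t - q.eval t) - t = _
        ring
      rw [this, zero_add, pow_one]
      exact I.neg_mem_iff.2 (eval_mem_of_coeff_mem I q hq t)
    | succ n ih =>
      obtain ⟨r, hr, hr'⟩ := eval_sub_eval_eq_mul_of_coeff_mem I q hq (a (n + 1)) (a n)
      have : a (n + 1 + 1) - a (n + 1) = - ((a (n + 1) - a n) * r) := by
        rw [ha (n + 1), ha n, ← hr']; ring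
      rw [this, pow_succ]
      exact (Ideal.neg_mem_iff _).2 (Ideal.mul_mem_mul ih hr)
  have hcauchy : ∀ m n, m ≤ n → a m ≡ a n [SMOD (I ^ m • ⊤ : Ideal R)] := by
    intro m n hmn
    rw [← Ideal.one_eq_top, Ideal.smul_eq_mul, mul_one]
    obtain ⟨k, rfl⟩ := Nat.exists_eq_add_of_le hmn
    induction k with
    | zero => rw [add_zero]
    | succ k ih =>
      refine (ih (Nat.le_add_right _ _)).trans ?_
      rw [SModEq.comm, SModEq.sub_mem, ← add_assoc]
      exact Ideal.pow_le_pow_right (by omega) (hstep (m + k))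
  obtain ⟨L, hL⟩ := IsPrecomplete.prec' a (fun {m n} h => hcauchy m n h)
  refine ⟨L, ?_⟩
  show L + q.eval L = t
  rw [← sub_eq_zero]
  apply IsHausdorff.haus' (I := I)
  intro n
  have hLn := hL n
  rw [← Ideal.one_eq_top, Ideal.smul_eq_mul, mul_one] at hLn ⊢
  rw [SModEq.zero]
  -- `L + q L - t = (L - a n) + (q L - q (a n)) + (a n - a (n+1))`
  obtain ⟨r, hr, hr'⟩ := eval_sub_eval_eq_mul_of_coeff_mem I q hq L (a n)
  have h1 : L - a n ∈ I ^ n := by
    rw [← SModEq.sub_mem]; exact hLn.symm
  have h2 : q.eval L - q.eval (a n) ∈ I ^ n := by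
    rw [hr']; exact Ideal.mul_mem_right _ _ h1
  have h3 : a n - a (n + 1) ∈ I ^ n := by
    have := Ideal.pow_le_pow_right (Nat.le_succ n) (hstep n)
    rw [← Ideal.neg_mem_iff]; simpa using this
  have : L + q.eval L - t = (L - a n) + (q.eval L - q.eval (a n)) + (a n - a (n + 1)) := by
    rw [ha n]; ring
  rw [this]
  exact Ideal.add_mem _ (Ideal.add_mem _ h1 h2) h3

/-- **Contraction lemma.** In an `I`-adically complete ring, `s ↦ s + q(s)` is bijective when `q`
has all its coefficients in `I`. -/
theorem bijective_add_eval (I : Ideal R) [IsAdicComplete I R] (q : R[X])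
    (hq : ∀ i, q.coeff i ∈ I) : Function.Bijective (fun s : R => s + q.eval s) :=
  ⟨injective_add_eval I q hq, surjective_add_eval I q hq⟩

end Fermat.Agent.S55.H353
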