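import Mathlib

/-!
# S55 / H353 : congruence subgroups of the unit group and an index lemma

* `unitsCongr I : Subgroup Rˣ` : units congruent to `1` modulo the ideal `I`.
* `relIndex_unitsCongr` : for `J ≤ I ≤ jacobson ⊥`,
  `[unitsCongr I : unitsCongr J] = #(I / J)`.
* `index_range_eq_card_ker_mul` : for an endomorphism `f` of a commutative group `A` and a
  finite-index subgroup `B` with `f` injective on `B` and `f B ≤ B`:
  `[A : f A] = #ker f * [B : f B]`.

Mathlib-only, architecture independent.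
-/

set_option autoImplicit false

namespace Fermat.Agent.S55.H353

section Index

variable {A : Type*} [CommGroup A]

/-- `[A : f A] = #ker f * [B : f B]` for a finite index subgroup `B` on which `f` is injective
and with `f B ≤ B`. -/
theorem index_range_eq_card_ker_mul (f : A →* A) (B : Subgroup A) (hB : B.index ≠ 0)
    (hinj : ∀ b ∈ B, f b = 1 → b = 1) (hle : B.map f ≤ B) :
    f.range.index = Nat.card f.ker * (B.map f).relIndex B := by
  have h1 : (B.map f).index = (B ⊔ f.ker).index * f.range.index := Subgroup.index_map B f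
  have h2 : (B.map f).relIndex B * B.index = (B.map f).index := Subgroup.relIndex_mul_index hle
  have h3 : B.relIndex (B ⊔ f.ker) * (B ⊔ f.ker).index = B.index :=
    Subgroup.relIndex_mul_index le_sup_left
  have h4 : B.relIndex (B ⊔ f.ker) = B.relIndex f.ker :=
    Subgroup.relIndex_sup_left f.ker B
  have h5 : B.relIndex f.ker = Nat.card f.ker := by
    have hbot : B ⊓ f.ker = ⊥ := by
      rw [eq_bot_iff]
      rintro x ⟨hxB, hxk⟩
      exact Subgroup.mem_bot.2 (hinj x hxB (MonoidHom.mem_ker.1 hxk))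
    rw [← Subgroup.inf_relIndex_right, hbot, Subgroup.relIndex_bot_left]
  have hi : (B ⊔ f.ker).index ≠ 0 := by
    intro h0
    rw [h0, mul_zero] at h3
    exact hB h3.symm
  have key : (B ⊔ f.ker).index * f.range.index =
      (B ⊔ f.ker).index * (Nat.card f.ker * (B.map f).relIndex B) := by
    rw [← h1, ← h2, ← h3, h4, h5]; ring
  exact Nat.eq_of_mul_eq_mul_left (Nat.pos_of_ne_zero hi) key

end Index

section UnitsCongr

variable {R : Type*} [CommRing R]

/-- The subgroup of units of `R` congruent to `1` modulo `I`. -/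
def unitsCongr (I : Ideal R) : Subgroup Rˣ :=
  (Units.map ((Ideal.Quotient.mk I : R →+* R ⧸ I) : R →* R ⧸ I)).ker

theorem mem_unitsCongr {I : Ideal R} {u : Rˣ} : u ∈ unitsCongr I ↔ (u : R) - 1 ∈ I := by
  rw [unitsCongr, MonoidHom.mem_ker, Units.ext_iff]
  simp only [Units.coe_map, MonoidHom.coe_coe, Units.val_one]
  rw [← Ideal.Quotient.eq_zero_iff_mem, map_sub, map_one, sub_eq_zero]

theorem unitsCongr_mono {I J : Ideal R} (h : J ≤ I) : unitsCongr J ≤ unitsCongr I := fun _ hu =>
  mem_unitsCongr.2 (h (mem_unitsCongr.1 hu))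

theorem unitsCongr_index_ne_zero (I : Ideal R) [Finite (R ⧸ I)] : (unitsCongr I).index ≠ 0 := by
  rw [unitsCongr, Subgroup.index_ker]
  exact Nat.card_pos.ne'

/-- `[unitsCongr I : unitsCongr I ⊓ unitsCongr J] = #(image of I in R/J)` for `I ≤ jacobson ⊥`
(so `[unitsCongr I : unitsCongr J] = #(I/J)` when `J ≤ I`). -/
theorem relIndex_unitsCongr {I J : Ideal R}
    (hI : I ≤ (⊥ : Ideal R).jacobson) :
    (unitsCongr J).relIndex (unitsCongr I) =
      Nat.card (Submodule.map (Submodule.mkQ J) I) := by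
  rw [unitsCongr, Subgroup.relIndex_ker]
  set φ : Rˣ →* (R ⧸ J)ˣ := Units.map ((Ideal.Quotient.mk J : R →+* R ⧸ J) : R →* R ⧸ J) with hφ
  have hmem : ∀ a : (Subgroup.map φ (unitsCongr I)),
      ((a : (R ⧸ J)ˣ) : R ⧸ J) - 1 ∈ Submodule.map (Submodule.mkQ J) I := by
    rintro ⟨a, u, hu, rfl⟩
    refine ⟨(u : R) - 1, mem_unitsCongr.1 hu, ?_⟩
    simp [hφ]
  refine Nat.card_congr (Equiv.ofBijective (fun a => ⟨_, hmem a⟩) ⟨?_, ?_⟩)
  · intro a b hab
    have : ((a : (R ⧸ J)ˣ) : R ⧸ J) - 1 = ((b : (R ⧸ J)ˣ) : R ⧸ J) - 1 :=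
      congrArg Subtype.val hab
    exact Subtype.ext (Units.ext (sub_left_injective this))
  · rintro ⟨b, x, hx, rfl⟩
    have hu : IsUnit (1 + x) := by
      have := (Ideal.mem_jacobson_bot.1 (hI hx)) 1
      simpa [add_comm] using this
    obtain ⟨u, hu'⟩ := hu
    have huI : u ∈ unitsCongr I := mem_unitsCongr.2 (by rw [hu']; simpa using hx)
    refine ⟨⟨φ u, u, huI, rfl⟩, ?_⟩
    apply Subtype.ext
    simp [hφ, hu']

end UnitsCongr

end Fermat.Agent.S55.H353
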