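import Fermat.Agent.S55.H353.PowerMap
import Fermat.Agent.S55.H353.UnitsCongr

/-!
# S55 / H353 : the local `n`-th power index (units of a complete DVR)

Let `O` be a complete discrete valuation ring of characteristic `0` with finite residue
field `k`, `𝔪` its maximal ideal, `n ≥ 1` and `(n) = 𝔪 ^ c`.  Then

`[Oˣ : (Oˣ)^n] = #μ_n(O) * #k ^ c`.

Mathlib-only, architecture independent.
-/

set_option autoImplicit false

namespace Fermat.Agent.S55.H353

open IsLocalRing

variable {O : Type*} [CommRing O] [IsDomain O] [IsDiscreteValuationRing O]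

/-- In a DVR with finite residue field all the quotients `O ⧸ 𝔪 ^ i` have `#k ^ i` elements. -/
theorem card_quotient_maximalIdeal_pow (i : ℕ) :
    Nat.card (O ⧸ maximalIdeal O ^ i) = Nat.card (ResidueField O) ^ i := by
  have h := cardQuot_pow_of_prime (S := O) (P := maximalIdeal O)
    (IsDiscreteValuationRing.not_a_field O) (i := i)
  rw [Submodule.cardQuot_apply, Submodule.cardQuot_apply] at h
  exact h

theorem finite_quotient_maximalIdeal_pow [Finite (ResidueField O)] (i : ℕ) :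
    Finite (O ⧸ maximalIdeal O ^ i) := by
  apply Nat.finite_of_card_ne_zero
  rw [card_quotient_maximalIdeal_pow]
  exact pow_ne_zero _ Nat.card_pos.ne'

/-- `#(𝔪^m / 𝔪^(m+c)) = #k ^ c`. -/
theorem card_map_mkQ_maximalIdeal_pow [Finite (ResidueField O)] (m c : ℕ) :
    Nat.card (Submodule.map (Submodule.mkQ (maximalIdeal O ^ (m + c))) (maximalIdeal O ^ m)) =
      Nat.card (ResidueField O) ^ c := by
  have h := Submodule.card_quotient_mul_card_quotient (maximalIdeal O ^ m)
    (maximalIdeal O ^ (m + c)) (Ideal.pow_le_pow_right (Nat.le_add_right m c))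
  rw [card_quotient_maximalIdeal_pow, card_quotient_maximalIdeal_pow, mul_comm] at h
  have h' : Nat.card (ResidueField O) ^ m *
      Nat.card (Submodule.map (Submodule.mkQ (maximalIdeal O ^ (m + c))) (maximalIdeal O ^ m)) =
      Nat.card (ResidueField O) ^ m * Nat.card (ResidueField O) ^ c := by
    rw [h, pow_add]
  exact Nat.eq_of_mul_eq_mul_left (pow_pos Nat.card_pos m) h'

/-- `[U^(m) : U^(m+c)] = #k ^ c` for `m ≥ 1`. -/
theorem relIndex_unitsCongr_maximalIdeal_pow [Finite (ResidueField O)] (m c : ℕ) (hm : 0 < m) :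
    (unitsCongr (maximalIdeal O ^ (m + c))).relIndex (unitsCongr (maximalIdeal O ^ m)) =
      Nat.card (ResidueField O) ^ c := by
  rw [relIndex_unitsCongr, card_map_mkQ_maximalIdeal_pow]
  rw [IsLocalRing.jacobson_eq_maximalIdeal ⊥ bot_ne_top]
  exact Ideal.pow_le_self hm.ne'

variable [IsAdicComplete (maximalIdeal O) O]

/-- The structure of the `n`-th power map on principal units of high level: it maps
`U^(m)` bijectively onto `U^(m+c)` as soon as `π^m ∈ n! 𝔪`, where `(n) = 𝔪^c`. -/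
theorem pow_unitsCongr (n : ℕ) (hn : 0 < n) (c : ℕ)
    (hc : Ideal.span {(n : O)} = maximalIdeal O ^ c) (ϖ : O) (hϖ : Irreducible ϖ) (m : ℕ)
    (w : O) (hw : w ∈ maximalIdeal O) (hm : ϖ ^ m = (n.factorial : O) * w) :
    (unitsCongr (maximalIdeal O ^ m)).map (powMonoidHom n : Oˣ →* Oˣ) =
        unitsCongr (maximalIdeal O ^ (m + c)) ∧
      ∀ u ∈ unitsCongr (maximalIdeal O ^ m), u ^ n = 1 → u = 1 := by
  obtain ⟨k, rfl⟩ : ∃ k, n = k + 1 := ⟨n - 1, by omega⟩
  have hmI : maximalIdeal O ^ m = Ideal.span {ϖ ^ m} := by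
    rw [hϖ.maximalIdeal_eq, Ideal.span_singleton_pow]
  have hmcI : maximalIdeal O ^ (m + c) = Ideal.span {((k + 1 : ℕ) : O) * ϖ ^ m} := by
    rw [pow_add, ← hc, hmI, Ideal.span_singleton_mul_span_singleton, mul_comm]
  have hn0 : ((k + 1 : ℕ) : O) ≠ 0 := by
    intro h0
    rw [h0] at hc
    have : maximalIdeal O ^ c = ⊥ := by rw [← hc]; simp
    exact IsDiscreteValuationRing.not_a_field O (pow_eq_zero_iff'.1 this).1
  have hreg : IsLeftRegular (((k + 1 : ℕ) : O) * ϖ ^ m) :=
    (IsRegular.of_ne_zero (mul_ne_zero hn0 (pow_ne_zero _ hϖ.ne_zero))).left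
  refine ⟨?_, ?_⟩
  · ext v
    constructor
    · rintro ⟨u, hu, rfl⟩
      have hu' := mem_unitsCongr.1 hu
      rw [hmI, Ideal.mem_span_singleton'] at hu'
      obtain ⟨s, hs⟩ := hu'
      have hus : (u : O) = 1 + ϖ ^ m * s := by rw [mul_comm, hs]; ring
      rw [mem_unitsCongr, hmcI, Ideal.mem_span_singleton']
      refine ⟨s + (powAux k (ϖ ^ m) w).eval s, ?_⟩
      simp only [powMonoidHom_apply, Units.val_pow_eq_pow_val]
      rw [hus, one_add_mul_pow k (ϖ ^ m) w hm s]
      ring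
    · intro hv
      have hv' := mem_unitsCongr.1 hv
      rw [hmcI, Ideal.mem_span_singleton'] at hv'
      obtain ⟨t, ht⟩ := hv'
      obtain ⟨s, hs⟩ := exists_one_add_mul_pow_eq (maximalIdeal O) k (ϖ ^ m) w hw hm t
      have hval : (1 + ϖ ^ m * s) ^ (k + 1) = (v : O) := by
        rw [hs, mul_comm, ht]; ring
      have hunit : IsUnit (1 + ϖ ^ m * s) := by
        have : IsUnit ((1 + ϖ ^ m * s) ^ (k + 1)) := by rw [hval]; exact v.isUnit
        exact (isUnit_pow_iff (Nat.succ_ne_zero k)).1 this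
      obtain ⟨u, hu⟩ := hunit
      refine ⟨u, ?_, ?_⟩
      · rw [SetLike.mem_coe, mem_unitsCongr, hu, hmI, Ideal.mem_span_singleton']
        exact ⟨s, by ring⟩
      · apply Units.ext
        simp only [powMonoidHom_apply, Units.val_pow_eq_pow_val]
        rw [hu, hval]
  · intro u hu hu1
    have hu' := mem_unitsCongr.1 hu
    rw [hmI, Ideal.mem_span_singleton'] at hu'
    obtain ⟨s, hs⟩ := hu'
    have hus : (u : O) = 1 + ϖ ^ m * s := by rw [mul_comm, hs]; ring
    have h1 : (1 + ϖ ^ m * s) ^ (k + 1) = (1 + ϖ ^ m * 0) ^ (k + 1) := by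
      rw [← hus, mul_zero, add_zero, one_pow, ← Units.val_pow_eq_pow_val, hu1, Units.val_one]
    have hs0 : s = 0 :=
      one_add_mul_pow_injective (maximalIdeal O) k (ϖ ^ m) w hw hm hreg h1
    apply Units.ext
    rw [hus, hs0, mul_zero, add_zero, Units.val_one]

/-- **Local `n`-th power index, units.**  For a complete DVR `O` of characteristic zero with
finite residue field `k`, and `(n) = 𝔪 ^ c`:  `[Oˣ : (Oˣ)^n] = #μ_n(O) * #k ^ c`. -/
theorem index_range_powMonoidHom_units [CharZero O] [Finite (ResidueField O)]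
    (n : ℕ) (hn : 0 < n) (c : ℕ) (hc : Ideal.span {(n : O)} = maximalIdeal O ^ c) :
    (powMonoidHom n : Oˣ →* Oˣ).range.index =
      Nat.card (powMonoidHom n : Oˣ →* Oˣ).ker * Nat.card (ResidueField O) ^ c := by
  obtain ⟨ϖ, hϖ⟩ := IsDiscreteValuationRing.exists_irreducible O
  -- choose `M` with `(n!) = (ϖ^M)`
  have hfact : ((n.factorial : ℕ) : O) ≠ 0 := Nat.cast_ne_zero.2 (Nat.factorial_ne_zero n)
  obtain ⟨M, v, hv⟩ := IsDiscreteValuationRing.eq_unit_mul_pow_irreducible hfact hϖ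
  -- `n! = v * ϖ^M`
  have hm : ϖ ^ (M + 1) = ((n.factorial : ℕ) : O) * (((v⁻¹ : Oˣ) : O) * ϖ) := by
    rw [hv, pow_succ]
    have : (v : O) * ϖ ^ M * (((v⁻¹ : Oˣ) : O) * ϖ) = ((v : O) * ((v⁻¹ : Oˣ) : O)) * (ϖ ^ M * ϖ) := by
      ring
    rw [this, Units.mul_inv, one_mul]
  have hw : ((v⁻¹ : Oˣ) : O) * ϖ ∈ maximalIdeal O := by
    rw [hϖ.maximalIdeal_eq]
    exact Ideal.mul_mem_left _ _ (Ideal.mem_span_singleton_self ϖ)
  obtain ⟨hmap, hinj⟩ := pow_unitsCongr n hn c hc ϖ hϖ (M + 1) _ hw hm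
  have := finite_quotient_maximalIdeal_pow (O := O) (M + 1)
  have hB : (unitsCongr (maximalIdeal O ^ (M + 1))).index ≠ 0 := unitsCongr_index_ne_zero _
  have hle : (unitsCongr (maximalIdeal O ^ (M + 1))).map (powMonoidHom n : Oˣ →* Oˣ) ≤
      unitsCongr (maximalIdeal O ^ (M + 1)) := by
    rw [hmap]
    exact unitsCongr_mono (Ideal.pow_le_pow_right (Nat.le_add_right _ _))
  rw [index_range_eq_card_ker_mul (powMonoidHom n : Oˣ →* Oˣ) _ hB
    (fun b hb hb1 => hinj b hb (by simpa using hb1)) hle, hmap,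
    relIndex_unitsCongr_maximalIdeal_pow (M + 1) c (Nat.succ_pos M)]

end Fermat.Agent.S55.H353
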