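import Fermat.Agent.S55.H353.LPI

/-!
# S55 / H353 : the local `n`-th power index (fraction field of a complete DVR)

Let `O` be a complete discrete valuation ring of characteristic `0` with finite residue
field `k`, `K = Frac O`, `n ≥ 1` and `(n) = 𝔪 ^ c`.  Then

`[Kˣ : (Kˣ)^n] = n * #μ_n(K) * #k ^ c`.

Mathlib-only, architecture independent.
-/

set_option autoImplicit false

namespace Fermat.Agent.S55.H353

open IsLocalRing

section Generic

variable {G H : Type*} [CommGroup G] [CommGroup H]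

theorem range_powMonoidHom_prod (n : ℕ) :
    (powMonoidHom n : G × H →* G × H).range =
      (powMonoidHom n : G →* G).range.prod (powMonoidHom n : H →* H).range := by
  ext ⟨a, b⟩
  simp only [MonoidHom.mem_range, powMonoidHom_apply, Subgroup.mem_prod, Prod.exists, Prod.pow_mk,
    Prod.mk.injEq]
  constructor
  · rintro ⟨x, y, hx, hy⟩
    exact ⟨⟨x, hx⟩, ⟨y, hy⟩⟩
  · rintro ⟨⟨x, hx⟩, ⟨y, hy⟩⟩
    exact ⟨x, y, hx, hy⟩

theorem ker_powMonoidHom_prod (n : ℕ) :
    (powMonoidHom n : G × H →* G × H).ker =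
      (powMonoidHom n : G →* G).ker.prod (powMonoidHom n : H →* H).ker := by
  ext ⟨a, b⟩
  simp [MonoidHom.mem_ker, Subgroup.mem_prod, Prod.ext_iff]

theorem index_range_powMonoidHom_congr (e : G ≃* H) (n : ℕ) :
    (powMonoidHom n : H →* H).range.index = (powMonoidHom n : G →* G).range.index := by
  have : (powMonoidHom n : H →* H).range =
      ((powMonoidHom n : G →* G).range).map (e : G →* H) := by
    ext y
    simp only [MonoidHom.mem_range, powMonoidHom_apply, Subgroup.mem_map, MonoidHom.coe_coe,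
      exists_exists_eq_and]
    constructor
    · rintro ⟨x, rfl⟩
      exact ⟨e.symm x, by simp⟩
    · rintro ⟨x, rfl⟩
      exact ⟨e x, by simp⟩
  rw [this, Subgroup.index_map_equiv]

theorem card_ker_powMonoidHom_congr (e : G ≃* H) (n : ℕ) :
    Nat.card (powMonoidHom n : H →* H).ker = Nat.card (powMonoidHom n : G →* G).ker := by
  refine (Nat.card_congr (Equiv.ofBijective
    (fun x : (powMonoidHom n : G →* G).ker => (⟨e x, ?_⟩ : (powMonoidHom n : H →* H).ker))
    ⟨?_, ?_⟩)).symm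
  · have := x.2
    rw [MonoidHom.mem_ker, powMonoidHom_apply] at this ⊢
    rw [← map_pow, this, map_one]
  · intro x y hxy
    exact Subtype.ext (e.injective (congrArg Subtype.val hxy))
  · rintro ⟨y, hy⟩
    refine ⟨⟨e.symm y, ?_⟩, Subtype.ext (by simp)⟩
    rw [MonoidHom.mem_ker, powMonoidHom_apply] at hy ⊢
    rw [← map_pow, hy, map_one]

/-- The `n`-th powers have index `n` in `Multiplicative ℤ`. -/
theorem index_range_powMonoidHom_int (n : ℕ) (hn : 0 < n) :
    (powMonoidHom n : Multiplicative ℤ →* Multiplicative ℤ).range.index = n := by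
  have : NeZero n := ⟨hn.ne'⟩
  let φ : Multiplicative ℤ →* Multiplicative (ZMod n) :=
    AddMonoidHom.toMultiplicative (Int.castAddHom (ZMod n))
  have hφ : Function.Surjective φ := fun y =>
    ⟨Multiplicative.ofAdd ((ZMod.intCast_surjective (Multiplicative.toAdd y)).choose),
      (ZMod.intCast_surjective (Multiplicative.toAdd y)).choose_spec⟩
  have hker : φ.ker = (powMonoidHom n : Multiplicative ℤ →* Multiplicative ℤ).range := by
    ext x
    rw [MonoidHom.mem_ker, MonoidHom.mem_range]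
    change ((Multiplicative.toAdd x : ℤ) : ZMod n) = 0 ↔ _
    rw [ZMod.intCast_zmod_eq_zero_iff_dvd]
    constructor
    · rintro ⟨y, hy⟩
      refine ⟨Multiplicative.ofAdd y, ?_⟩
      rw [powMonoidHom_apply]
      apply Multiplicative.toAdd.injective
      rw [toAdd_pow, toAdd_ofAdd, hy]
      simp
    · rintro ⟨y, rfl⟩
      rw [powMonoidHom_apply, toAdd_pow]
      simp
  rw [← hker, Subgroup.index_ker, MonoidHom.range_eq_top.2 hφ]
  rw [Nat.card_congr (Subgroup.topEquiv (G := Multiplicative (ZMod n))).toEquiv]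
  rw [Nat.card_congr Multiplicative.toAdd, Nat.card_zmod]

theorem ker_powMonoidHom_int (n : ℕ) (hn : 0 < n) :
    (powMonoidHom n : Multiplicative ℤ →* Multiplicative ℤ).ker = ⊥ := by
  rw [eq_bot_iff]
  intro x hx
  rw [MonoidHom.mem_ker, powMonoidHom_apply] at hx
  rw [Subgroup.mem_bot]
  apply Multiplicative.toAdd.injective
  have := congrArg Multiplicative.toAdd hx
  rw [toAdd_pow, toAdd_one, smul_eq_zero] at this
  rcases this with h | h
  · omega
  · rw [h, toAdd_one]

end Generic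

section DVR

variable {O : Type*} [CommRing O] [IsDomain O] [IsDiscreteValuationRing O]
variable (K : Type*) [Field K] [Algebra O K] [IsFractionRing O K]

/-- The homomorphism `Oˣ × ℤ → Kˣ`, `(u, z) ↦ u ϖ^z`. -/
noncomputable def unitsProdHom (ϖ : O) (hϖ : ϖ ≠ 0) : Oˣ × Multiplicative ℤ →* Kˣ :=
  (Units.map ((algebraMap O K : O →+* K) : O →* K)).coprod
    (zpowersHom Kˣ (Units.mk0 (algebraMap O K ϖ)
      ((map_ne_zero_iff _ (IsFractionRing.injective O K)).2 hϖ)))

omit [IsDomain O] [IsDiscreteValuationRing O] in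
theorem unitsProdHom_apply (ϖ : O) (hϖ : ϖ ≠ 0) (u : Oˣ) (z : Multiplicative ℤ) :
    ((unitsProdHom K ϖ hϖ (u, z) : Kˣ) : K) =
      algebraMap O K u * (algebraMap O K ϖ) ^ (Multiplicative.toAdd z) := by
  simp [unitsProdHom, MonoidHom.coprod_apply, zpowersHom_apply]

theorem unitsProdHom_bijective (ϖ : O) (hϖ : Irreducible ϖ) :
    Function.Bijective (unitsProdHom K ϖ hϖ.ne_zero) := by
  have hinjK : Function.Injective (algebraMap O K) := IsFractionRing.injective O K
  have hϖK : algebraMap O K ϖ ≠ 0 := (map_ne_zero_iff _ hinjK).2 hϖ.ne_zero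
  have hpow : ∀ (a : ℕ) (u : Oˣ), (u : O) * ϖ ^ a = 1 → a = 0 := by
    intro a u h
    by_contra ha
    have h1 : IsUnit (ϖ ^ a) := IsUnit.of_mul_eq_one _ (by rw [mul_comm]; exact h)
    exact hϖ.not_isUnit ((isUnit_pow_iff ha).1 h1)
  constructor
  · rw [injective_iff_map_eq_one]
    rintro ⟨u, z⟩ h
    have h' : algebraMap O K u * (algebraMap O K ϖ) ^ (Multiplicative.toAdd z) = 1 := by
      rw [← unitsProdHom_apply K ϖ hϖ.ne_zero, h, Units.val_one]
    have hz : Multiplicative.toAdd z = 0 := by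
      rcases Int.eq_nat_or_neg (Multiplicative.toAdd z) with ⟨a, ha | ha⟩
      · rw [ha, zpow_natCast, ← map_pow, ← map_mul, ← map_one (algebraMap O K)] at h'
        rw [ha, hpow a u (hinjK h')]; rfl
      · rw [ha, zpow_neg, zpow_natCast, ← div_eq_mul_inv,
          div_eq_one_iff_eq (pow_ne_zero _ hϖK), ← map_pow] at h'
        have h2 : ((u⁻¹ : Oˣ) : O) * ϖ ^ a = 1 := by
          rw [← hinjK h', Units.inv_mul]
        rw [ha, hpow a _ h2]; rfl
    have hz' : z = 1 := Multiplicative.toAdd.injective hz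
    subst hz'
    have hu : algebraMap O K u = 1 := by simpa using h'
    have hu' : (u : O) = 1 := hinjK (by rw [hu, map_one])
    exact Prod.ext (Units.ext hu') rfl
  · intro x
    obtain ⟨z, u, hx⟩ :=
      IsDiscreteValuationRing.exists_units_eq_smul_zpow_of_irreducible (K := K) hϖ x.ne_zero
    refine ⟨(u, Multiplicative.ofAdd z), Units.ext ?_⟩
    rw [unitsProdHom_apply, hx, toAdd_ofAdd, Units.smul_def, Algebra.smul_def]

/-- The group isomorphism `Oˣ × ℤ ≃ Kˣ`, `(u, z) ↦ u ϖ^z`. -/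
noncomputable def unitsProdEquiv (ϖ : O) (hϖ : Irreducible ϖ) : Oˣ × Multiplicative ℤ ≃* Kˣ :=
  MulEquiv.ofBijective (unitsProdHom K ϖ hϖ.ne_zero) (unitsProdHom_bijective K ϖ hϖ)

/-- `#μ_n(K) = #μ_n(O)`. -/
theorem card_ker_powMonoidHom_field (n : ℕ) (hn : 0 < n) :
    Nat.card (powMonoidHom n : Kˣ →* Kˣ).ker = Nat.card (powMonoidHom n : Oˣ →* Oˣ).ker := by
  obtain ⟨ϖ, hϖ⟩ := IsDiscreteValuationRing.exists_irreducible O
  rw [card_ker_powMonoidHom_congr (unitsProdEquiv K ϖ hϖ) n, ker_powMonoidHom_prod,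
    ker_powMonoidHom_int n hn]
  refine Nat.card_congr (Equiv.ofBijective
    (fun x : ((powMonoidHom n : Oˣ →* Oˣ).ker.prod (⊥ : Subgroup (Multiplicative ℤ))) =>
      (⟨x.1.1, (Subgroup.mem_prod.1 x.2).1⟩ : (powMonoidHom n : Oˣ →* Oˣ).ker)) ⟨?_, ?_⟩)
  · rintro ⟨⟨a, b⟩, ha⟩ ⟨⟨a', b'⟩, ha'⟩ h
    have h1 : a = a' := congrArg Subtype.val h
    have hb : b = 1 := Subgroup.mem_bot.1 (Subgroup.mem_prod.1 ha).2
    have hb' : b' = 1 := Subgroup.mem_bot.1 (Subgroup.mem_prod.1 ha').2
    exact Subtype.ext (Prod.ext h1 (hb.trans hb'.symm))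
  · rintro ⟨a, ha⟩
    exact ⟨⟨(a, 1), Subgroup.mem_prod.2 ⟨ha, Subgroup.mem_bot.2 rfl⟩⟩, rfl⟩

variable [IsAdicComplete (maximalIdeal O) O]

/-- **Local `n`-th power index, field.**  For a complete DVR `O` of characteristic zero with
finite residue field `k`, fraction field `K`, and `(n) = 𝔪 ^ c`:
`[Kˣ : (Kˣ)^n] = n * #μ_n(K) * #k ^ c`. -/
theorem index_range_powMonoidHom_field [CharZero O] [Finite (ResidueField O)]
    (n : ℕ) (hn : 0 < n) (c : ℕ) (hc : Ideal.span {(n : O)} = maximalIdeal O ^ c) :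
    (powMonoidHom n : Kˣ →* Kˣ).range.index =
      n * Nat.card (powMonoidHom n : Kˣ →* Kˣ).ker * Nat.card (ResidueField O) ^ c := by
  obtain ⟨ϖ, hϖ⟩ := IsDiscreteValuationRing.exists_irreducible O
  rw [index_range_powMonoidHom_congr (unitsProdEquiv K ϖ hϖ) n, range_powMonoidHom_prod,
    Subgroup.index_prod, index_range_powMonoidHom_int n hn,
    index_range_powMonoidHom_units n hn c hc, card_ker_powMonoidHom_field (O := O) K n hn]
  ring

/-- Finiteness of `Kˣ / (Kˣ)^n`. -/
theorem index_range_powMonoidHom_field_ne_zero [CharZero O] [Finite (ResidueField O)]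
    (n : ℕ) (hn : 0 < n) : (powMonoidHom n : Kˣ →* Kˣ).range.index ≠ 0 := by
  have hn0 : ((n : ℕ) : O) ≠ 0 := Nat.cast_ne_zero.2 hn.ne'
  obtain ⟨ϖ, hϖ⟩ := IsDiscreteValuationRing.exists_irreducible O
  obtain ⟨c, hc⟩ := IsDiscreteValuationRing.ideal_eq_span_pow_irreducible
    (s := Ideal.span {(n : O)}) (by simpa using hn0) hϖ
  rw [← Ideal.span_singleton_pow, ← hϖ.maximalIdeal_eq] at hc
  rw [index_range_powMonoidHom_field K n hn c hc]
  have hfin : Finite (powMonoidHom n : Kˣ →* Kˣ).ker := by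
    have : (powMonoidHom n : Kˣ →* Kˣ).ker = rootsOfUnity n K := by
      ext x; simp [MonoidHom.mem_ker, mem_rootsOfUnity]
    rw [this]
    have : NeZero n := ⟨hn.ne'⟩
    infer_instance
  exact mul_ne_zero (mul_ne_zero hn.ne' Nat.card_pos.ne') (pow_ne_zero _ Nat.card_pos.ne')

theorem ker_powMonoidHom_eq_rootsOfUnity (M : Type*) [CommMonoid M] (n : ℕ) :
    (powMonoidHom n : Mˣ →* Mˣ).ker = rootsOfUnity n M := by
  ext x; simp [MonoidHom.mem_ker, mem_rootsOfUnity]

/-- **Local `n`-th power index, field**, in terms of `rootsOfUnity`. -/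
theorem index_range_powMonoidHom_field' [CharZero O] [Finite (ResidueField O)]
    (n : ℕ) (hn : 0 < n) (c : ℕ) (hc : Ideal.span {(n : O)} = maximalIdeal O ^ c) :
    (powMonoidHom n : Kˣ →* Kˣ).range.index =
      n * Nat.card (rootsOfUnity n K) * Nat.card (ResidueField O) ^ c := by
  rw [index_range_powMonoidHom_field K n hn c hc, ker_powMonoidHom_eq_rootsOfUnity]

/-- **Local `n`-th power index, units**, in terms of `rootsOfUnity`. -/
theorem index_range_powMonoidHom_units' [CharZero O] [Finite (ResidueField O)]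
    (n : ℕ) (hn : 0 < n) (c : ℕ) (hc : Ideal.span {(n : O)} = maximalIdeal O ^ c) :
    (powMonoidHom n : Oˣ →* Oˣ).range.index =
      Nat.card (rootsOfUnity n O) * Nat.card (ResidueField O) ^ c := by
  rw [index_range_powMonoidHom_units n hn c hc, ker_powMonoidHom_eq_rootsOfUnity]

end DVR

end Fermat.Agent.S55.H353
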