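import Fermat.Agent.S55.H353.Contraction

/-!
# S55 / H353 : the `n`-th power map on `1 + ϖ R` in an adically complete ring

Let `R` be `I`-adically complete, `n ≥ 1`, and `ϖ = n! * w` with `w ∈ I`.  Then
`(1 + ϖ s) ^ n = 1 + n ϖ (s + q(s))` for a polynomial `q` with coefficients in `I`,
hence for every `t` there is an `s` with `(1 + ϖ s) ^ n = 1 + n ϖ t`, unique if `n ϖ` is
a non-zero-divisor.

Mathlib-only, architecture independent.
-/

set_option autoImplicit false

namespace Fermat.Agent.S55.H353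

open Polynomial

variable {R : Type*} [CommRing R]

/-- The auxiliary polynomial `q` with `(1 + ϖ s)^(k+1) = 1 + (k+1) ϖ (s + q(s))`,
where `ϖ = (k+1)! * w`. -/
noncomputable def powAux (k : ℕ) (ϖ w : R) : R[X] :=
  ∑ j ∈ Finset.range k,
    C (((k + 1).choose (j + 2) : R) * (k.factorial : R) * w * ϖ ^ j) * X ^ (j + 2)

theorem powAux_coeff_mem (I : Ideal R) (k : ℕ) (ϖ w : R) (hw : w ∈ I) (i : ℕ) :
    (powAux k ϖ w).coeff i ∈ I := by
  rw [powAux, Polynomial.finsetSum_coeff]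
  refine Ideal.sum_mem _ fun j _ => ?_
  rw [Polynomial.coeff_C_mul, Polynomial.coeff_X_pow]
  split_ifs
  · rw [mul_one]
    exact Ideal.mul_mem_right _ _ (Ideal.mul_mem_left _ _ hw)
  · rw [mul_zero]; exact I.zero_mem

theorem powAux_eval (k : ℕ) (ϖ w s : R) :
    (powAux k ϖ w).eval s =
      ∑ j ∈ Finset.range k,
        ((k + 1).choose (j + 2) : R) * (k.factorial : R) * w * ϖ ^ j * s ^ (j + 2) := by
  rw [powAux, Polynomial.eval_finsetSum]
  refine Finset.sum_congr rfl fun j _ => ?_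
  simp [Polynomial.eval_mul, Polynomial.eval_C, Polynomial.eval_pow, Polynomial.eval_X]

/-- Key identity: `(1 + ϖ s)^(k+1) = 1 + (k+1) ϖ (s + q(s))` when `ϖ = (k+1)! * w`. -/
theorem one_add_mul_pow (k : ℕ) (ϖ w : R) (hϖ : ϖ = ((k + 1).factorial : R) * w) (s : R) :
    (1 + ϖ * s) ^ (k + 1) = 1 + ((k + 1 : ℕ) : R) * ϖ * (s + (powAux k ϖ w).eval s) := by
  rw [add_comm 1 (ϖ * s), add_pow]
  rw [Finset.sum_range_succ', Finset.sum_range_succ']
  simp only [one_pow, mul_one, pow_zero, Nat.choose_zero_right, Nat.cast_one, zero_add, pow_one,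
    Nat.choose_one_right]
  rw [powAux_eval, mul_add, Finset.mul_sum]
  have hterm : ∀ j ∈ Finset.range k,
      (ϖ * s) ^ (j + 1 + 1) * (((k + 1).choose (j + 1 + 1) : ℕ) : R) =
        ((k + 1 : ℕ) : R) * ϖ *
          (((k + 1).choose (j + 2) : R) * (k.factorial : R) * w * ϖ ^ j * s ^ (j + 2)) := by
    intro j _
    have hf : ((k + 1).factorial : R) = ((k + 1 : ℕ) : R) * (k.factorial : R) := by
      rw [Nat.factorial_succ, Nat.cast_mul]
    have h2 : ϖ ^ (j + 2) = ((k + 1 : ℕ) : R) * ϖ * ((k.factorial : R) * w * ϖ ^ j) := by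
      calc ϖ ^ (j + 2) = ϖ * ϖ * ϖ ^ j := by ring
        _ = (((k + 1).factorial : R) * w) * ϖ * ϖ ^ j := by rw [← hϖ]
        _ = _ := by rw [hf]; ring
    rw [mul_pow, h2]
    ring
  rw [Finset.sum_congr rfl hterm]
  ring

/-- Existence: every element of `1 + n ϖ R` is an `n`-th power of an element of `1 + ϖ R`. -/
theorem exists_one_add_mul_pow_eq (I : Ideal R) [IsAdicComplete I R] (k : ℕ) (ϖ w : R)
    (hw : w ∈ I) (hϖ : ϖ = ((k + 1).factorial : R) * w) (t : R) :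
    ∃ s : R, (1 + ϖ * s) ^ (k + 1) = 1 + ((k + 1 : ℕ) : R) * ϖ * t := by
  obtain ⟨s, hs⟩ := surjective_add_eval I (powAux k ϖ w) (powAux_coeff_mem I k ϖ w hw) t
  exact ⟨s, by rw [one_add_mul_pow k ϖ w hϖ s]; simp only at hs; rw [hs]⟩

/-- Uniqueness: the `n`-th power map is injective on `1 + ϖ R` (if `n ϖ` is regular). -/
theorem one_add_mul_pow_injective (I : Ideal R) [IsAdicComplete I R] (k : ℕ) (ϖ w : R)
    (hw : w ∈ I) (hϖ : ϖ = ((k + 1).factorial : R) * w)
    (hreg : IsLeftRegular (((k + 1 : ℕ) : R) * ϖ)) {s s' : R}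
    (h : (1 + ϖ * s) ^ (k + 1) = (1 + ϖ * s') ^ (k + 1)) : s = s' := by
  rw [one_add_mul_pow k ϖ w hϖ s, one_add_mul_pow k ϖ w hϖ s'] at h
  have h' := hreg (add_left_cancel h)
  exact injective_add_eval I (powAux k ϖ w) (powAux_coeff_mem I k ϖ w hw) h'

end Fermat.Agent.S55.H353
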